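import Fermat.Agent.S44.ES.TB
import Fermat.Agent.S05.Inertia

/-!
# S44, block V, node Basis, (C1): inertia multiplies an element of valuation `v(1 - ζ)` by the
cyclotomic character modulo higher order terms
-/

set_option autoImplicit false

namespace Fermat.Agent.S44.V.Basis

section Galois

local notation "Qb" => AlgebraicClosure ℚ
local notation "GQ" => (AlgebraicClosure ℚ ≃ₐ[ℚ] AlgebraicClosure ℚ)

/-- (C1) an element of the same valuation as `ζ - 1` is multiplied by the cyclotomic character
modulo higher order terms -/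
theorem val_apply_sub_mul_lt (A : ValuationSubring Qb) {p : ℕ} (hp : p.Prime)
    (hA : A.LiesOverPrime p) {ζ : Qb} (hζ : IsPrimitiveRoot ζ p) {σ : GQ} (hσ : σ ∈ A.inertiaSubgroupIn ℚ) {c : ℕ}
    (hc : σ ζ = ζ ^ c) {z : Qb} (hz : A.valuation z = A.valuation (1 - ζ)) :
    A.valuation (σ z - c * z) < A.valuation z := by
  set π : Qb := 1 - ζ with hπ
  have hπ0 : π ≠ 0 := sub_ne_zero.mpr (hζ.ne_one hp.one_lt).symm
  have hvπ0 : A.valuation π ≠ 0 := (map_ne_zero _).2 hπ0
  have hvπpos : 0 < A.valuation π := zero_lt_iff.2 hvπ0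
  have hvp : A.valuation (p : Qb) < 1 := (ValuationSubring.mem_nonunits_iff A).mp hA
  have hvπ : A.valuation π < 1 := by
    by_contra hcon
    rw [not_lt] at hcon
    rw [Fermat.Agent.S44.ES.val_natCast_eq_pow A hp hζ] at hvp
    exact absurd hvp (not_lt.mpr (one_le_pow₀ hcon))
  set u : Qb := z / π with hu
  have hzu : z = u * π := by rw [hu, div_mul_cancel₀ _ hπ0]
  have hvu : A.valuation u = 1 := by
    rw [hu, map_div₀, hz, div_self hvπ0]
  have h1 : A.valuation (σ u - u) < 1 :=
    Fermat.Agent.S05.inertia_valuation_sub_lt_one A hσ hvu.le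
  have hσπ : σ π = 1 - ζ ^ c := by rw [hπ, map_sub, map_one, hc]
  have : Algebra.IsAlgebraic ℚ Qb := AlgebraicClosure.isAlgebraic ℚ
  have hvσπ : A.valuation (σ π) = A.valuation π := Fermat.Agent.S05.inertia_valuation_eq A hσ π
  set S : Qb := ∑ i ∈ Finset.range c, ζ ^ i with hS
  have hgeom : 1 - ζ ^ c = S * π := by
    have := geom_sum_mul ζ c
    rw [← hS] at this
    rw [hπ]
    linear_combination this
  have hSc : A.valuation (S - c) ≤ A.valuation π := by
    have e : S - c = ∑ i ∈ Finset.range c, (ζ ^ i - 1) := by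
      rw [Finset.sum_sub_distrib, hS]
      simp
    rw [e]
    refine A.valuation.map_sum_le fun i _ => ?_
    rw [Valuation.map_sub_swap]
    exact Fermat.Agent.S44.ES.val_one_sub_pow_le A hp.ne_zero hζ.pow_eq_one i
  have hdecomp : σ z - c * z = (σ u - u) * σ π + u * ((S - c) * π) := by
    rw [hzu, map_mul, hσπ, hgeom]
    ring
  rw [hdecomp, hz]
  refine A.valuation.map_add_lt ?_ ?_
  · rw [map_mul, hvσπ]
    calc A.valuation (σ u - u) * A.valuation π < 1 * A.valuation π :=
          mul_lt_mul_of_pos_right h1 hvπpos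
      _ = A.valuation π := one_mul _
  · rw [map_mul, map_mul, hvu, one_mul]
    calc A.valuation (S - c) * A.valuation π ≤ A.valuation π * A.valuation π :=
          mul_le_mul_left hSc _
      _ < 1 * A.valuation π := mul_lt_mul_of_pos_right hvπ hvπpos
      _ = A.valuation π := one_mul _

end Galois

end Fermat.Agent.S44.V.Basis
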