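import Fermat.Agent.S44.ES.Tame

/-!
# S44, block V, node Basis: D1 (product over the inertia orbit) and D2 (value group arithmetic)
-/

set_option autoImplicit false

namespace Fermat.Agent.S44.V.Basis

section Galois

local notation "Qb" => AlgebraicClosure ℚ
local notation "GQ" => (AlgebraicClosure ℚ ≃ₐ[ℚ] AlgebraicClosure ℚ)

/-- the inertia field is unramified: exponent one form of `ES.tame_inertia` -/
private theorem depth_val_eq_zpow (A : ValuationSubring Qb) {p : ℕ} (hp : p.Prime)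
    (hA : A.LiesOverPrime p) {w : Qb} (hw : w ≠ 0)
    (hfix : ∀ σ ∈ A.inertiaSubgroupIn ℚ, σ w = w) :
    ∃ i : ℤ, A.valuation w = A.valuation (p : Qb) ^ i := by
  obtain ⟨k, u, -, hu, hu', hwu⟩ := Lib.InertiaField.exists_zpow_mul_unit A p hp hA
    ((Lib.InertiaField.mem_K0_iff A w).mpr hfix) hw
  refine ⟨k, ?_⟩
  have h1 : A.valuation u ≤ 1 := (A.valuation_le_one_iff u).mpr hu
  have h2 : A.valuation u⁻¹ ≤ 1 := (A.valuation_le_one_iff _).mpr hu'
  have hu0 : u ≠ 0 := by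
    rintro rfl
    rw [mul_zero] at hwu
    exact hw hwu
  have hv0 : A.valuation u ≠ 0 := (map_ne_zero _).mpr hu0
  have h3 : A.valuation u = 1 := by
    refine le_antisymm h1 ?_
    rw [map_inv₀] at h2
    exact (inv_le_one₀ (zero_lt_iff.mpr hv0)).mp h2
  rw [hwu, map_mul, map_zpow₀, h3, mul_one]

/-- (D1) product over the orbit -/
theorem exists_pow_eq_zpow_of_orbit (A : ValuationSubring Qb) {p : ℕ} (hp : p.Prime)
    (hA : A.LiesOverPrime p) {X : Type*} [MulAction GQ X] (x₀ : X) (S : Finset X)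
    (horb : ∀ σ ∈ A.inertiaSubgroupIn ℚ, σ • x₀ ∈ S) {w : Qb} (hw : w ≠ 0)
    (hfix : ∀ σ ∈ A.inertiaSubgroupIn ℚ, σ • x₀ = x₀ → σ w = w) :
    ∃ n : ℕ, 0 < n ∧ n ≤ S.card ∧ ∃ i : ℤ, A.valuation w ^ n = A.valuation (p : Qb) ^ i := by
  classical
  set J : Subgroup GQ := A.inertiaSubgroupIn ℚ with hJdef
  -- a section of the orbit map
  let g : X → Qb := fun y => if h : ∃ σ ∈ J, σ • x₀ = y then (Classical.choose h) w else 0
  have hg : ∀ σ ∈ J, g (σ • x₀) = σ w := by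
    intro σ hσ
    have h : ∃ ρ ∈ J, ρ • x₀ = σ • x₀ := ⟨σ, hσ, rfl⟩
    have hgdef : g (σ • x₀) = (Classical.choose h) w := dif_pos h
    obtain ⟨hρJ, hρ⟩ := Classical.choose_spec h
    set ρ := Classical.choose h
    have hmem : σ⁻¹ * ρ ∈ J := J.mul_mem (J.inv_mem hσ) hρJ
    have hstab : (σ⁻¹ * ρ) • x₀ = x₀ := by
      rw [mul_smul, hρ, inv_smul_smul]
    have h2 := hfix _ hmem hstab
    rw [AlgEquiv.mul_apply] at h2
    rw [hgdef]
    have h3 := congrArg σ h2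
    rwa [← AlgEquiv.mul_apply, mul_inv_cancel, AlgEquiv.one_apply] at h3
  let O : Finset Qb := (S.filter fun y => ∃ σ ∈ J, σ • x₀ = y).image g
  have hO : ∀ y : Qb, y ∈ O ↔ ∃ σ ∈ J, σ w = y := by
    intro y
    simp only [O, Finset.mem_image, Finset.mem_filter]
    constructor
    · rintro ⟨x, ⟨-, σ, hσ, rfl⟩, rfl⟩
      exact ⟨σ, hσ, (hg σ hσ).symm⟩
    · rintro ⟨σ, hσ, rfl⟩
      exact ⟨σ • x₀, ⟨horb σ hσ, σ, hσ, rfl⟩, hg σ hσ⟩
  have hcard : O.card ≤ S.card := Finset.card_image_le.trans (Finset.card_filter_le _ _)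
  have hcard0 : 0 < O.card := Finset.card_pos.mpr ⟨w, (hO w).mpr ⟨1, J.one_mem, rfl⟩⟩
  -- the norm
  set N : Qb := ∏ y ∈ O, y with hN
  have hN0 : N ≠ 0 := by
    rw [hN, Finset.prod_ne_zero_iff]
    intro y hy
    obtain ⟨σ, -, rfl⟩ := (hO y).mp hy
    exact (map_ne_zero_iff σ σ.injective).mpr hw
  have hNfix : ∀ ρ ∈ J, ρ N = N := by
    intro ρ hρ
    have himg : O.image ρ = O := by
      ext y
      rw [Finset.mem_image]
      constructor
      · rintro ⟨x, hx, rfl⟩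
        obtain ⟨σ, hσ, rfl⟩ := (hO x).mp hx
        exact (hO _).mpr ⟨ρ * σ, J.mul_mem hρ hσ, rfl⟩
      · intro hy
        obtain ⟨σ, hσ, rfl⟩ := (hO y).mp hy
        refine ⟨(ρ⁻¹ * σ) w, (hO _).mpr ⟨ρ⁻¹ * σ, J.mul_mem (J.inv_mem hρ) hσ, rfl⟩, ?_⟩
        rw [← AlgEquiv.mul_apply, mul_inv_cancel_left]
    have h1 : ∏ y ∈ O.image ρ, y = ∏ y ∈ O, ρ y :=
      Finset.prod_image (fun a _ b _ hab => ρ.injective hab)
    rw [hN, map_prod, ← h1, himg]
  have hNval : A.valuation N = A.valuation w ^ O.card := by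
    rw [hN, map_prod, Finset.prod_congr rfl (g := fun _ => A.valuation w), Finset.prod_const]
    intro y hy
    obtain ⟨σ, hσ, rfl⟩ := (hO y).mp hy
    exact ES.val_apply_eq A hσ w
  obtain ⟨i, hi⟩ := depth_val_eq_zpow A hp hA hN0 hNfix
  exact ⟨O.card, hcard0, hcard, i, by rw [← hNval, hi]⟩

/-- (D2) arithmetic in the value group -/
theorem pow_eq_of_bounds {Γ₀ : Type*} [LinearOrderedCommGroupWithZero Γ₀] {ϖ r : Γ₀} (hϖ0 : ϖ ≠ 0)
    (hϖ : ϖ < 1) {d : ℕ} (hd : 0 < d) (hlo : ϖ ≤ r ^ d) (hhi : r ^ d < 1) {n : ℕ} (hn : 0 < n)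
    (hnd : n ≤ d) {i : ℤ} (h : r ^ n = ϖ ^ i) : r ^ d = ϖ := by
  have hpos : 0 < ϖ := zero_lt_iff.mpr hϖ0
  have hkey : (r ^ d) ^ n = ϖ ^ (i * d) := by
    rw [← pow_mul, mul_comm d n, pow_mul, h, zpow_mul, zpow_natCast]
  have h1 : ϖ ^ (n : ℤ) ≤ ϖ ^ (i * d) := by
    rw [← hkey, zpow_natCast]
    exact pow_le_pow_left₀ zero_le hlo n
  have h2 : ϖ ^ (i * d) < ϖ ^ (0 : ℤ) := by
    rw [← hkey, zpow_zero]
    exact pow_lt_one₀ zero_le hhi hn.ne'
  have h3 : i * d ≤ n := (zpow_le_zpow_iff_right_of_lt_one₀ hpos hϖ).mp h1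
  have h4 : 0 < i * d := (zpow_lt_zpow_iff_right_of_lt_one₀ hpos hϖ).mp h2
  have hd' : (0 : ℤ) < d := by exact_mod_cast hd
  have hnd' : (n : ℤ) ≤ d := by exact_mod_cast hnd
  have hi : 0 < i := by
    by_contra hcon
    have : i * d ≤ 0 := mul_nonpos_of_nonpos_of_nonneg (not_lt.mp hcon) hd'.le
    omega
  have hi1 : i = 1 := by
    by_contra hcon
    have h2i : 2 ≤ i := by omega
    have : 2 * (d : ℤ) ≤ i * d := mul_le_mul_of_nonneg_right h2i hd'.le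
    omega
  subst hi1
  have hnd'' : n = d := by
    have : (d : ℤ) ≤ n := by simpa using h3
    omega
  rw [← hnd'', h, zpow_one]

end Galois

end Fermat.Agent.S44.V.Basis
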