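import Fermat.Agent.S13.KernelRed

/-!
# S44, block V, node Basis, (F1)-(F4): formal group estimates on `S13.Model`   (helper234)
-/

set_option autoImplicit false

namespace Fermat.Agent.S44.V.Basis

open Fermat.Agent.S13

section Formal

variable {K : Type*} [Field K] {Γ₀ : Type*} [LinearOrderedCommGroupWithZero Γ₀]
  (v : Valuation K Γ₀) {a₁ a₂ a₄ : K} {G : Type*} [AddCommGroup G] (M : Model K a₁ a₂ a₄ G)

/-- the parameter `X / Y` at the origin -/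
def zc (P : G) : K := M.X P / M.Y P

/-- abstract form of (F1) -/
theorem formal_val_sq {x y : K} (h₁ : v a₁ ≤ 1) (h₂ : v a₂ ≤ 1) (h₄ : v a₄ ≤ 1)
    (e : y ^ 2 + a₁ * x * y = x ^ 3 + a₂ * x ^ 2 + a₄ * x) (hX : 1 < v x) :
    v y ^ 2 = v x ^ 3 ∧ v x < v y := by
  have hx0 : 0 < v x := lt_trans zero_lt_one hX
  have hx12 : v x < v x ^ 2 := by
    calc v x = v x * 1 := (mul_one _).symm
      _ < v x * v x := by gcongr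
      _ = v x ^ 2 := (sq _).symm
  have hx23 : v x ^ 2 < v x ^ 3 := by
    have : 0 < v x ^ 2 := pow_pos hx0 2
    calc v x ^ 2 = v x ^ 2 * 1 := (mul_one _).symm
      _ < v x ^ 2 * v x := by gcongr
      _ = v x ^ 3 := (pow_succ _ _).symm
  have hR : v (x ^ 3 + a₂ * x ^ 2 + a₄ * x) = v x ^ 3 := by
    have h1 : v (a₂ * x ^ 2) < v (x ^ 3) := by
      rw [map_mul, map_pow, map_pow]
      calc v a₂ * v x ^ 2 ≤ 1 * v x ^ 2 := by gcongr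
        _ = v x ^ 2 := one_mul _
        _ < _ := hx23
    have h2 : v (a₄ * x) < v (x ^ 3 + a₂ * x ^ 2) := by
      rw [Valuation.map_add_eq_of_lt_left v h1, map_mul, map_pow]
      calc v a₄ * v x ≤ 1 * v x := by gcongr
        _ = v x := one_mul _
        _ < _ := lt_trans hx12 hx23
    rw [Valuation.map_add_eq_of_lt_left v h2, Valuation.map_add_eq_of_lt_left v h1, map_pow]
  have hlt : v x < v y := by
    by_contra hcon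
    rw [not_lt] at hcon
    have : v (y ^ 2 + a₁ * x * y) ≤ v x ^ 2 := by
      refine le_trans (v.map_add _ _) (max_le ?_ ?_)
      · rw [map_pow]; gcongr
      · rw [map_mul, map_mul]
        calc v a₁ * v x * v y ≤ 1 * v x * v x := by gcongr
          _ = v x ^ 2 := by rw [one_mul, sq]
    rw [e, hR] at this
    exact absurd (lt_of_lt_of_le hx23 this) (lt_irrefl _)
  refine ⟨?_, hlt⟩
  have hy0 : 0 < v y := lt_trans hx0 hlt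
  have h3 : v (a₁ * x * y) < v (y ^ 2) := by
    rw [map_mul, map_mul, map_pow]
    calc v a₁ * v x * v y ≤ 1 * v x * v y := by gcongr
      _ = v x * v y := by rw [one_mul]
      _ < v y * v y := by gcongr
      _ = v y ^ 2 := (sq _).symm
  rw [← hR, ← e, Valuation.map_add_eq_of_lt_left v h3, map_pow]

/-- (F1) -/
theorem val_Y_sq (h₁ : v a₁ ≤ 1) (h₂ : v a₂ ≤ 1) (h₄ : v a₄ ≤ 1) {P : G} (hP : P ≠ 0)
    (hX : 1 < v (M.X P)) : v (M.Y P) ^ 2 = v (M.X P) ^ 3 ∧ v (M.X P) < v (M.Y P) :=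
  formal_val_sq v h₁ h₂ h₄ (M.eqn P hP) hX

/-- (F2) -/
theorem val_zc_sq_mul (h₁ : v a₁ ≤ 1) (h₂ : v a₂ ≤ 1) (h₄ : v a₄ ≤ 1) {P : G} (hP : P ≠ 0)
    (hX : 1 < v (M.X P)) : v (zc M P) ^ 2 * v (M.X P) = 1 := by
  obtain ⟨hsq, -⟩ := val_Y_sq v M h₁ h₂ h₄ hP hX
  have hx0 : v (M.X P) ≠ 0 := (lt_trans zero_lt_one hX).ne'
  rw [zc, map_div₀, div_pow, hsq, div_mul_eq_mul_div, ← pow_succ, div_self (pow_ne_zero 3 hx0)]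

/-- (F3) -/
theorem val_zc_add_neg (h₁ : v a₁ ≤ 1) (h₂ : v a₂ ≤ 1) (h₄ : v a₄ ≤ 1) {P : G} (hP : P ≠ 0)
    (hX : 1 < v (M.X P)) : v (zc M (-P) + zc M P) ≤ v (zc M P) ^ 2 := by
  obtain ⟨-, hlt⟩ := val_Y_sq v M h₁ h₂ h₄ hP hX
  have hy0 : 0 < v (M.Y P) := lt_trans (lt_trans zero_lt_one hX) hlt
  have hY0 : M.Y P ≠ 0 := (v.ne_zero_iff).1 hy0.ne'
  have hYa : v (M.Y P + a₁ * M.X P) = v (M.Y P) := by
    refine Valuation.map_add_eq_of_lt_left v ?_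
    rw [map_mul]
    calc v a₁ * v (M.X P) ≤ 1 * v (M.X P) := by gcongr
      _ = v (M.X P) := one_mul _
      _ < _ := hlt
  have hYa0 : M.Y P + a₁ * M.X P ≠ 0 := by
    intro h
    rw [h, map_zero] at hYa
    exact hy0.ne hYa
  have e : zc M (-P) + zc M P = a₁ * (M.X P) ^ 2 / (M.Y P * (M.Y P + a₁ * M.X P)) := by
    rw [zc, zc, M.X_neg P hP, M.Y_neg P hP,
      show -M.Y P - a₁ * M.X P = -(M.Y P + a₁ * M.X P) by ring]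
    obtain ⟨D, hD⟩ : ∃ D, D = M.Y P + a₁ * M.X P := ⟨_, rfl⟩
    rw [← hD] at hYa0 ⊢
    field_simp
    rw [hD]
    ring
  rw [e, map_div₀, map_mul, map_mul, map_pow, hYa, zc, map_div₀, div_pow, ← sq, div_eq_mul_inv,
    div_eq_mul_inv]
  calc v a₁ * v (M.X P) ^ 2 * (v (M.Y P) ^ 2)⁻¹ ≤ 1 * v (M.X P) ^ 2 * (v (M.Y P) ^ 2)⁻¹ := by
        gcongr
    _ = _ := by rw [one_mul]

/-- the polynomial identity behind (F4) -/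
theorem formal_triple_identity {X₁ X₂ X₃ Y₁ Y₂ Y₃ l n : K} (hY₁0 : Y₁ ≠ 0) (hY₂0 : Y₂ ≠ 0)
    (hY₃0 : Y₃ ≠ 0) (hY₁ : Y₁ = l * X₁ + n) (hY₂ : Y₂ = l * X₂ + n) (hY₃ : Y₃ = l * X₃ + n)
    (E₁ : X₁ + X₂ + X₃ = l ^ 2 + a₁ * l - a₂)
    (E₂ : X₁ * X₂ + X₁ * X₃ + X₂ * X₃ = a₄ - 2 * l * n - a₁ * n)
    (E₃ : X₁ * X₂ * X₃ = n ^ 2) :
    (X₁ / Y₁ + X₂ / Y₂ + X₃ / Y₃) * (Y₁ * Y₂ * Y₃) =
      -n * (a₁ * l * n + a₂ * n - 2 * a₄ * l) := by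
  have h : (X₁ / Y₁ + X₂ / Y₂ + X₃ / Y₃) * (Y₁ * Y₂ * Y₃) =
      X₁ * Y₂ * Y₃ + X₂ * Y₁ * Y₃ + X₃ * Y₁ * Y₂ := by
    field_simp
  rw [h, hY₁, hY₂, hY₃]
  linear_combination 3 * l ^ 2 * E₃ + 2 * l * n * E₂ + n ^ 2 * E₁

/-- the estimates in the value group behind (F4) -/
theorem formal_gamma {x₁ x₂ x₃ y₁ r₁ r₂ r₃ ν lam δ : Γ₀}
    (hx₁ : 1 < x₁) (hx₂ : 1 < x₂) (hx₃ : 1 < x₃)
    (q₁ : r₁ ^ 2 * x₁ = 1) (q₂ : r₂ ^ 2 * x₂ = 1) (q₃ : r₃ ^ 2 * x₃ = 1)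
    (ry₁ : r₁ * y₁ = x₁) (hν : ν ^ 2 = x₁ * x₂ * x₃) (hlam : lam * x₁ ≤ max y₁ ν)
    (h1 : r₁ ≤ δ) (h2 : r₂ ≤ δ) (h3 : r₃ ≤ δ) :
    r₁ * r₂ * r₃ * ν = 1 ∧ lam ≤ δ ^ 2 * ν ∧ 1 ≤ δ ^ 2 * ν ∧ 1 ≤ ν := by
  have hrν : r₁ * r₂ * r₃ * ν = 1 := by
    have hsq : (r₁ * r₂ * r₃ * ν) ^ 2 = 1 := by
      calc (r₁ * r₂ * r₃ * ν) ^ 2 = r₁ ^ 2 * r₂ ^ 2 * r₃ ^ 2 * ν ^ 2 := by simp only [mul_pow]
        _ = r₁ ^ 2 * r₂ ^ 2 * r₃ ^ 2 * (x₁ * x₂ * x₃) := by rw [hν]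
        _ = (r₁ ^ 2 * x₁) * (r₂ ^ 2 * x₂) * (r₃ ^ 2 * x₃) := by ac_rfl
        _ = 1 := by rw [q₁, q₂, q₃, one_mul, one_mul]
    exact (pow_eq_one_iff.mp hsq).resolve_right two_ne_zero
  have hr₃ : r₃ ≤ 1 := by
    by_contra hcon
    rw [not_le] at hcon
    have : 1 < r₃ ^ 2 * x₃ := one_lt_mul'' (one_lt_pow' hcon two_ne_zero) hx₃
    rw [q₃] at this
    exact lt_irrefl _ this
  have hν1 : 1 ≤ ν := by
    by_contra hcon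
    rw [not_le] at hcon
    have h' : ν ^ 2 < 1 := pow_lt_one' hcon two_ne_zero
    have h'' : 1 < x₁ * x₂ * x₃ := one_lt_mul'' (one_lt_mul'' hx₁ hx₂) hx₃
    rw [hν] at h'
    exact lt_irrefl _ (lt_trans h' h'')
  have hδν : 1 ≤ δ ^ 2 * ν := by
    calc 1 = r₁ * r₂ * r₃ * ν := hrν.symm
      _ ≤ δ * δ * 1 * ν := by gcongr
      _ = δ ^ 2 * ν := by rw [mul_one, sq]
  refine ⟨hrν, ?_, hδν, hν1⟩
  have hx₁0 : 0 < x₁ := lt_trans zero_lt_one hx₁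
  have b1 : y₁ ≤ δ ^ 2 * ν * x₁ := by
    calc y₁ = (r₁ * r₂ * r₃ * ν) * y₁ := by rw [hrν, one_mul]
      _ = r₂ * r₃ * ν * (r₁ * y₁) := by ac_rfl
      _ = r₂ * r₃ * ν * x₁ := by rw [ry₁]
      _ ≤ δ * δ * ν * x₁ := by gcongr
      _ = δ ^ 2 * ν * x₁ := by rw [sq]
  have b2 : ν ≤ δ ^ 2 * ν * x₁ := by
    calc ν = (r₁ ^ 2 * x₁) * ν := by rw [q₁, one_mul]
      _ ≤ (δ ^ 2 * x₁) * ν := by gcongr
      _ = δ ^ 2 * ν * x₁ := by ac_rfl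
  exact le_of_mul_le_mul_right (le_trans hlam (max_le b1 b2)) hx₁0

/-- (F4) the formal group estimate for a collinear triple in the kernel of reduction -/
theorem val_zc_triple (h₁ : v a₁ ≤ 1) (h₂ : v a₂ ≤ 1) (h₄ : v a₄ ≤ 1) {P₁ P₂ P₃ : G}
    (hP₁ : P₁ ≠ 0) (hP₂ : P₂ ≠ 0) (hP₃ : P₃ ≠ 0) (hsum : P₁ + P₂ + P₃ = 0)
    (hX₁ : 1 < v (M.X P₁)) (hX₂ : 1 < v (M.X P₂)) (hX₃ : 1 < v (M.X P₃)) {δ : Γ₀}
    (h1 : v (zc M P₁) ≤ δ) (h2 : v (zc M P₂) ≤ δ) (h3 : v (zc M P₃) ≤ δ) :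
    v (zc M P₁ + zc M P₂ + zc M P₃) ≤ δ ^ 2 := by
  obtain ⟨l, n, hY₁, hY₂, hY₃, E₁, E₂, E₃⟩ := M.line P₁ P₂ P₃ hP₁ hP₂ hP₃ hsum
  have hy : ∀ P : G, P ≠ 0 → 1 < v (M.X P) → 0 < v (M.Y P) := fun P hP hX =>
    lt_trans (lt_trans zero_lt_one hX) (val_Y_sq v M h₁ h₂ h₄ hP hX).2
  have hy₁ := hy P₁ hP₁ hX₁
  have hy₂ := hy P₂ hP₂ hX₂
  have hy₃ := hy P₃ hP₃ hX₃
  have hry : ∀ P : G, 0 < v (M.Y P) → v (zc M P) * v (M.Y P) = v (M.X P) := fun P hP => by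
    rw [zc, map_div₀, div_mul_cancel₀ _ hP.ne']
  have hX₁0 : M.X P₁ ≠ 0 := (v.ne_zero_iff).1 (lt_trans zero_lt_one hX₁).ne'
  have hlam : v l * v (M.X P₁) ≤ max (v (M.Y P₁)) (v n) := by
    rw [← map_mul, show l * M.X P₁ = M.Y P₁ - n by rw [hY₁]; ring]
    exact v.map_sub _ _
  have hν : v n ^ 2 = v (M.X P₁) * v (M.X P₂) * v (M.X P₃) := by
    rw [← map_pow, ← E₃, map_mul, map_mul]
  obtain ⟨hrν, g1, g2, g3⟩ := formal_gamma hX₁ hX₂ hX₃ (val_zc_sq_mul v M h₁ h₂ h₄ hP₁ hX₁)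
    (val_zc_sq_mul v M h₁ h₂ h₄ hP₂ hX₂) (val_zc_sq_mul v M h₁ h₂ h₄ hP₃ hX₃) (hry P₁ hy₁) hν hlam
    h1 h2 h3
  have hid := formal_triple_identity (a₁ := a₁) (a₂ := a₂) (a₄ := a₄) ((v.ne_zero_iff).1 hy₁.ne')
    ((v.ne_zero_iff).1 hy₂.ne') ((v.ne_zero_iff).1 hy₃.ne') hY₁ hY₂ hY₃ E₁ E₂ E₃
  have hyyy : v (M.Y P₁) * v (M.Y P₂) * v (M.Y P₃) = v n ^ 3 := by
    calc v (M.Y P₁) * v (M.Y P₂) * v (M.Y P₃)
        = (v (zc M P₁) * v (zc M P₂) * v (zc M P₃) * v n) *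
            (v (M.Y P₁) * v (M.Y P₂) * v (M.Y P₃)) := by rw [hrν, one_mul]
      _ = v n * ((v (zc M P₁) * v (M.Y P₁)) * (v (zc M P₂) * v (M.Y P₂)) *
            (v (zc M P₃) * v (M.Y P₃))) := by ac_rfl
      _ = v n * v n ^ 2 := by rw [hry P₁ hy₁, hry P₂ hy₂, hry P₃ hy₃, hν]
      _ = v n ^ 3 := (pow_succ' _ _).symm
  have hv2 : v (2 : K) ≤ 1 := by
    have : (2 : K) = 1 + 1 := by norm_num
    rw [this]
    exact le_trans (v.map_add _ _) (by simp)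
  have hT : v (a₁ * l * n + a₂ * n - 2 * a₄ * l) ≤ δ ^ 2 * v n * v n := by
    refine le_trans (v.map_sub _ _) (max_le (le_trans (v.map_add _ _) (max_le ?_ ?_)) ?_)
    · rw [map_mul, map_mul]
      calc v a₁ * v l * v n ≤ 1 * (δ ^ 2 * v n) * v n := by gcongr
        _ = _ := by rw [one_mul]
    · rw [map_mul]
      calc v a₂ * v n ≤ 1 * v n := by gcongr
        _ ≤ (δ ^ 2 * v n) * v n := by gcongr
    · rw [map_mul, map_mul]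
      calc v 2 * v a₄ * v l ≤ 1 * 1 * (δ ^ 2 * v n) := by gcongr
        _ = δ ^ 2 * v n * 1 := by rw [one_mul, one_mul, mul_one]
        _ ≤ δ ^ 2 * v n * v n := by gcongr
  have hpos : 0 < v (M.Y P₁) * v (M.Y P₂) * v (M.Y P₃) := mul_pos (mul_pos hy₁ hy₂) hy₃
  refine le_of_mul_le_mul_right ?_ hpos
  have hS : v (zc M P₁ + zc M P₂ + zc M P₃) * (v (M.Y P₁) * v (M.Y P₂) * v (M.Y P₃)) =
      v n * v (a₁ * l * n + a₂ * n - 2 * a₄ * l) := by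
    rw [← map_mul, ← map_mul, ← map_mul]
    simp only [zc]
    rw [hid, map_mul, Valuation.map_neg]
  rw [hS, hyyy]
  calc v n * v (a₁ * l * n + a₂ * n - 2 * a₄ * l) ≤ v n * (δ ^ 2 * v n * v n) := by gcongr
    _ = δ ^ 2 * (v n * v n * v n) := by ac_rfl
    _ = δ ^ 2 * v n ^ 3 := by rw [pow_succ (v n) 2, sq (v n)]

end Formal

end Fermat.Agent.S44.V.Basis
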